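/-
Row 37 (S43), block OPS (architect helper297), sub-block OPS-U (helper47).  CONTRACT + formal layer.

`UOp F₀ q` : the multiplicative operator `U_q` on `FB F₀`, pinned down by its `q`-expansion
`(U u)(t^q) = ∏_{b < q} u(ζ_q^b t)`, together with the fact that it preserves Kummer elements.
Everything which follows formally from the `q`-expansion is proved here:
* `UW n`             : the operator on the Kummer module `W1 F₀ n`;
* `U_eq`             : uniqueness;
* `U_algebraMap`     : `U c = c ^ q`;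
* `galF_U`, `commute_rho_UW` : `U_q` commutes with `G_ℚ`.
The existence (`F₀ = F1Q q M`, `F₀ = modularFunctionFieldFull (q * M)`) is in `Ops/U/Inst.lean`.
-/
import Fermat.Agent.S48.BB.E.HeckeOp1

set_option autoImplicit false

noncomputable section

namespace Fermat.Agent.S43.Ops.U

open ModularCurve AlgebraicCurve Fermat.Agent.S24 Fermat.Agent.S24.B Fermat.Agent.S48.BB
  Fermat.Agent.S48.BB.M Fermat.Agent.S48.BB.E
open Fermat.Agent.GAL.E (GQ incl red qExpand_injective')

/-- The multiplicative operator `u(t) ↦ ∏_b u(ζ^b t^(1/q))` on `FB F₀`. -/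
structure UOp (F₀ : IntermediateField ℚ (LaurentSeries ℚ)) (q : ℕ) [NeZero q] where
  /-- the operator -/
  U : FB F₀ →* FB F₀
  /-- `(U u)(t^q) = ∏_b u(ζ^b t)` -/
  qExpand_U : ∀ u : FB F₀, qExpand Kbar q ((U u : FB F₀) : LaurentSeries Kbar) =
      ∏ b ∈ Finset.range q, twist (zetaK q ^ b) (u : LaurentSeries Kbar)
  /-- `U` preserves the elements whose divisor is divisible by `n` -/
  isKum : ∀ (n : ℕ) (u : FB F₀), IsKum (FB F₀) n u → IsKum (FB F₀) n (U u)

namespace UOp

variable {F₀ : IntermediateField ℚ (LaurentSeries ℚ)} {q : ℕ} [NeZero q] (X : UOp F₀ q)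

/-- The operator on units. -/
def UU : (FB F₀)ˣ →* (FB F₀)ˣ := Units.map X.U

theorem coe_UU (u : (FB F₀)ˣ) : ((X.UU u : (FB F₀)ˣ) : FB F₀) = X.U u := rfl

theorem UU_mem_kum {n : ℕ} (u : (FB F₀)ˣ) (hu : u ∈ kum (FB F₀) n) : X.UU u ∈ kum (FB F₀) n :=
  X.isKum n u hu

/-- `U_q` on the Kummer module. -/
def UW (n : ℕ) : AddMonoid.End (W1 F₀ n) := mapW X.UU fun u hu => X.UU_mem_kum u hu

theorem UW_cls {n : ℕ} (u : kum (FB F₀) n) :
    X.UW n (cls u) =
      cls (⟨X.UU (u : (FB F₀)ˣ), X.UU_mem_kum (u : (FB F₀)ˣ) u.2⟩ : kum (FB F₀) n) :=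
  mapW_cls X.UU (fun u hu => X.UU_mem_kum u hu) u

/-- the operator is unique -/
theorem U_eq (X' : UOp F₀ q) : X.U = X'.U := by
  refine MonoidHom.ext fun u => Subtype.ext (qExpand_injective' q ?_)
  rw [X.qExpand_U, X'.qExpand_U]

theorem UW_eq (X' : UOp F₀ q) (n : ℕ) : X.UW n = X'.UW n := by
  refine AddMonoidHom.ext fun x => ?_
  obtain ⟨u, rfl⟩ := cls_surjective x
  show X.UW n (cls u) = X'.UW n (cls u)
  rw [X.UW_cls, X'.UW_cls]
  refine congrArg cls (Subtype.ext (Units.ext ?_))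
  exact DFunLike.congr_fun (X.U_eq X') _

theorem U_algebraMap (c : Kbar) :
    X.U (algebraMap Kbar (FB F₀) c) = algebraMap Kbar (FB F₀) (c ^ q) := by
  refine Subtype.ext (qExpand_injective' q ?_)
  rw [X.qExpand_U, HeckeOp1.coe_algebraMap, HeckeOp1.coe_algebraMap, qExpand_C]
  simp only [twist_C, Finset.prod_const, Finset.card_range]
  rw [← map_pow]

/-- `σ` permutes the `q`-th roots of unity, so it commutes with `U_q` -/
theorem galF_U (σ : GQ) (u : FB F₀) : galF F₀ σ (X.U u) = X.U (galF F₀ σ u) := by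
  refine Subtype.ext (qExpand_injective' q ?_)
  rw [X.qExpand_U, coe_galF, coe_galF, ← GAL.E.HeckeBasic.coeffMap_qExpand, X.qExpand_U, map_prod]
  simp only [GAL.E.HeckeBasic.coeffMap_twist, map_pow]
  have hξ : IsPrimitiveRoot (Units.map ((σ : Kbar →+* Kbar) : Kbar →* Kbar) (zetaK q)) q := by
    rw [← IsPrimitiveRoot.coe_units_iff, Units.coe_map]
    exact (IsPrimitiveRoot.coe_units_iff.2 (isPrimitiveRoot_zetaK q)).map_of_injective
      (f := (σ : Kbar →+* Kbar)) σ.injective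
  exact GAL.E.HeckeBasic.prod_pow_eq (isPrimitiveRoot_zetaK q) hξ
    (fun z => twist z (coeffMap (σ : Kbar →+* Kbar) (u : LaurentSeries Kbar)))

theorem commute_rho_UW (n : ℕ) (σ : GQ) : Commute (rho F₀ n σ) (X.UW n) := by
  refine AddMonoidHom.ext fun x => ?_
  obtain ⟨u, rfl⟩ := cls_surjective x
  show rho F₀ n σ (X.UW n (cls u)) = X.UW n (rho F₀ n σ (cls u))
  rw [X.UW_cls, rho_cls, rho_cls, X.UW_cls]
  refine congrArg cls (Subtype.ext (Units.ext ?_))
  exact X.galF_U σ _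

theorem U_ne_zero {b : FB F₀} (hb : b ≠ 0) : X.U b ≠ 0 :=
  ((isUnit_iff_ne_zero.2 hb).map X.U).ne_zero

theorem U_div (a : FB F₀) {b : FB F₀} (hb : b ≠ 0) : X.U (a / b) = X.U a / X.U b := by
  rw [eq_div_iff (X.U_ne_zero hb), ← map_mul, div_mul_cancel₀ _ hb]

end UOp

end Fermat.Agent.S43.Ops.U

end
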