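/-
Row 37 (S43), block OPS, sub-block OPS-U (architect helper47; prover helper8).  MATRIX / FIELD SIDE of `U_q`.

For `(H, H') = (H1 q M, H1 q (M * q))` and `(Γ₀(N), Γ₀(N * q))` (`q ∣ N`):
* `hF`    : the function field of `H` is contained in the one of `H'`;
* `hT`    : `T ∈ H`;
* `hdiag` : `diag(q,1) g = δ diag(q,1)` with `δ = (a, q b; c / q, d) ∈ H` for `g = (a b; c d) ∈ H'`;
* `hcov`  : `(1 0; 0 q) g = δ (1 j; 0 q)` with `j = b d mod q`, `δ = (a, (b - a j) / q; q c, d - c j) ∈ H'` for `g ∈ H`.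
No primality of `q` is needed.
-/
import Fermat.Agent.S48.BB.T.Mat

set_option autoImplicit false

namespace Fermat.Agent.S43.Ops.U

open ModularCurve CongruenceSubgroup Matrix.SpecialLinearGroup
open Fermat.Agent.S24 Fermat.Agent.S48.A Fermat.Agent.S48.BB Fermat.Agent.S48.BB.H
open scoped MatrixGroups

theorem Mat_val_mapGL (γ : SL(2, ℤ)) :
    ((mapGL ℝ γ : GL (Fin 2) ℝ) : Matrix (Fin 2) (Fin 2) ℝ) = γ.1.map (Int.cast : ℤ → ℝ) := by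
  ext i j; simp

/-- An identity of integral matrices gives the identity in `GL₂(ℝ)`. -/
theorem Mat_upper_mul (q : ℕ) [NeZero q] (g δ : SL(2, ℤ)) (i j : ℕ)
    (h : (!![1, (i : ℤ); 0, (q : ℤ)] : Matrix (Fin 2) (Fin 2) ℤ) * g.1 =
      δ.1 * !![1, (j : ℤ); 0, (q : ℤ)]) :
    ModularForm.heckeMatrix q i * mapGL ℝ g = mapGL ℝ δ * ModularForm.heckeMatrix q j := by
  have hq : q ≠ 0 := NeZero.ne q
  apply Units.ext
  rw [Units.val_mul, Units.val_mul, ModularForm.val_heckeMatrix hq,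
    ModularForm.val_heckeMatrix hq, Mat_val_mapGL, Mat_val_mapGL]
  have h' := congrArg (fun A : Matrix (Fin 2) (Fin 2) ℤ => A.map (Int.cast : ℤ → ℝ)) h
  simp only [Matrix.map_mul_intCast] at h'
  convert h' using 2
  · ext i k; fin_cases i <;> fin_cases k <;> simp
  · ext i k; fin_cases i <;> fin_cases k <;> simp

theorem Mat_diag_mul_diag (q : ℕ) [NeZero q] (g δ : SL(2, ℤ))
    (h : (!![(q : ℤ), 0; 0, 1] : Matrix (Fin 2) (Fin 2) ℤ) * g.1 = δ.1 * !![(q : ℤ), 0; 0, 1]) :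
    ModularForm.heckeDiagMatrix q * mapGL ℝ g = mapGL ℝ δ * ModularForm.heckeDiagMatrix q := by
  have hq : q ≠ 0 := NeZero.ne q
  apply Units.ext
  rw [Units.val_mul, Units.val_mul, ModularForm.val_heckeDiagMatrix hq,
    Mat_val_mapGL, Mat_val_mapGL]
  have h' := congrArg (fun A : Matrix (Fin 2) (Fin 2) ℤ => A.map (Int.cast : ℤ → ℝ)) h
  simp only [Matrix.map_mul_intCast] at h'
  convert h' using 2
  · ext i k; fin_cases i <;> fin_cases k <;> simp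
  · ext i k; fin_cases i <;> fin_cases k <;> simp

theorem Mat_det (g : SL(2, ℤ)) : g 0 0 * g 1 1 - g 0 1 * g 1 0 = 1 := by
  have := g.2
  rwa [Matrix.det_fin_two] at this

theorem Mat_mem_Gamma0_iff {N : ℕ} {g : SL(2, ℤ)} : g ∈ Gamma0 N ↔ (N : ℤ) ∣ g 1 0 := by
  rw [Gamma0_mem, ZMod.intCast_zmod_eq_zero_iff_dvd]

/-- membership in `H1 q r`: in `Γ₀(q r)` with lower right entry `± 1` mod `q`. -/
theorem Mat_mem_H1_iff {q r : ℕ} {g : SL(2, ℤ)} :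
    g ∈ H1 q r ↔ (((q * r : ℕ) : ℤ) ∣ g 1 0) ∧ (dd q g = 1 ∨ dd q g = -1) := by
  rw [H1, Subgroup.mem_inf, pmGamma1_eq, mem_pmSub, Mat_mem_Gamma0_iff, Mat_mem_Gamma0_iff]
  constructor
  · rintro ⟨⟨-, h⟩, h'⟩
    exact ⟨h', h⟩
  · rintro ⟨h', h⟩
    refine ⟨⟨?_, h⟩, h'⟩
    refine dvd_trans ?_ h'
    push_cast
    exact Dvd.intro _ rfl

/-! ### the conjugated matrices -/

/-- `δ = (a, q b; c / q, d)` -/
theorem Mat_exists_diag (q : ℕ) [NeZero q] (g : SL(2, ℤ)) (hg : (q : ℤ) ∣ g 1 0) :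
    ∃ δ : SL(2, ℤ), (q : ℤ) * δ 1 0 = g 1 0 ∧ δ 1 1 = g 1 1 ∧
      ModularForm.heckeDiagMatrix q * mapGL ℝ g = mapGL ℝ δ * ModularForm.heckeDiagMatrix q := by
  obtain ⟨c', hc'⟩ := hg
  have hdet := Mat_det g
  let δ : SL(2, ℤ) := ⟨!![g 0 0, q * g 0 1; c', g 1 1], by
    rw [Matrix.det_fin_two_of]
    rw [hc'] at hdet
    linear_combination hdet⟩
  refine ⟨δ, hc'.symm, rfl, Mat_diag_mul_diag q g δ ?_⟩
  show (!![(q : ℤ), 0; 0, 1] : Matrix (Fin 2) (Fin 2) ℤ) * g.1 =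
    !![g 0 0, q * g 0 1; c', g 1 1] * !![(q : ℤ), 0; 0, 1]
  ext i k
  fin_cases i <;> fin_cases k <;> simp [Matrix.mul_apply, Fin.sum_univ_two, hc'] <;> ring

/-- `δ = (a, (b - a j) / q; q c, d - c j)`, `j = b d mod q` -/
theorem Mat_exists_cov (q : ℕ) [NeZero q] (g : SL(2, ℤ)) (hg : (q : ℤ) ∣ g 1 0) :
    ∃ j < q, ∃ δ : SL(2, ℤ), δ 1 0 = (q : ℤ) * g 1 0 ∧ δ 1 1 = g 1 1 - g 1 0 * (j : ℤ) ∧
      ModularForm.heckeMatrix q 0 * mapGL ℝ g = mapGL ℝ δ * ModularForm.heckeMatrix q j := by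
  have hq : (q : ℤ) ≠ 0 := by exact_mod_cast NeZero.ne q
  have hq0 : (0 : ℤ) < q := by exact_mod_cast Nat.pos_of_ne_zero (NeZero.ne q)
  obtain ⟨c', hc'⟩ := hg
  have hdet := Mat_det g
  set J : ℤ := (g 0 1 * g 1 1) % q with hJ
  have hJ0 : 0 ≤ J := Int.emod_nonneg _ hq
  have hJq : J < q := Int.emod_lt_of_pos _ hq0
  obtain ⟨j, hj⟩ := Int.eq_ofNat_of_zero_le hJ0
  have hdiv : (q : ℤ) ∣ g 0 1 - g 0 0 * J := by
    have h1 : (q : ℤ) ∣ g 0 1 * g 1 1 - J := by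
      rw [hJ]; exact Int.dvd_self_sub_emod
    obtain ⟨e, he⟩ := h1
    refine ⟨- g 0 1 * g 0 1 * c' + g 0 0 * e, ?_⟩
    rw [hc'] at hdet
    linear_combination (- g 0 1) * hdet + g 0 0 * he
  obtain ⟨b', hb'⟩ := hdiv
  let δ : SL(2, ℤ) := ⟨!![g 0 0, b'; q * g 1 0, g 1 1 - g 1 0 * J], by
    rw [Matrix.det_fin_two_of]
    linear_combination hdet + g 1 0 * hb'⟩
  refine ⟨j, by rw [hj] at hJq; exact_mod_cast hJq, δ, rfl, by rw [← hj]; rfl, ?_⟩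
  refine Mat_upper_mul q g δ 0 j ?_
  rw [← hj]
  show (!![1, ((0 : ℕ) : ℤ); 0, (q : ℤ)] : Matrix (Fin 2) (Fin 2) ℤ) * g.1 =
    !![g 0 0, b'; q * g 1 0, g 1 1 - g 1 0 * J] * !![1, J; 0, (q : ℤ)]
  ext i k
  fin_cases i <;> fin_cases k <;> simp [Matrix.mul_apply, Fin.sum_univ_two]
  · linear_combination hb'
  · ring

/-! ### `Γ₀(N)`, `Γ₀(N q)` -/

theorem Mat_T_mem_Gamma0 (N : ℕ) : ModularGroup.T ∈ Gamma0 N := by
  rw [Gamma0_mem]; simp [ModularGroup.T]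

theorem Mat_hdiag_Gamma0 (N q : ℕ) [NeZero q] (g : SL(2, ℤ)) (hg : g ∈ Gamma0 (N * q)) :
    ∃ d ∈ Gamma0 N,
      ModularForm.heckeDiagMatrix q * mapGL ℝ g = mapGL ℝ d * ModularForm.heckeDiagMatrix q := by
  have hq : (q : ℤ) ≠ 0 := by exact_mod_cast NeZero.ne q
  rw [Mat_mem_Gamma0_iff] at hg
  push_cast at hg
  obtain ⟨δ, h1, -, h3⟩ := Mat_exists_diag q g ((Dvd.intro_left _ rfl).trans hg)
  refine ⟨δ, ?_, h3⟩
  rw [Mat_mem_Gamma0_iff]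
  rw [← h1, mul_comm] at hg
  exact (mul_dvd_mul_iff_left hq).1 hg

theorem Mat_hcov_Gamma0 (N q : ℕ) [NeZero q] (hqN : q ∣ N) (g : SL(2, ℤ)) (hg : g ∈ Gamma0 N) :
    ∃ j < q, ∃ d ∈ Gamma0 (N * q),
      ModularForm.heckeMatrix q 0 * mapGL ℝ g = mapGL ℝ d * ModularForm.heckeMatrix q j := by
  rw [Mat_mem_Gamma0_iff] at hg
  obtain ⟨j, hj, δ, h1, -, h3⟩ := Mat_exists_cov q g ((Int.natCast_dvd_natCast.2 hqN).trans hg)
  refine ⟨j, hj, δ, ?_, h3⟩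
  rw [Mat_mem_Gamma0_iff, h1]
  push_cast
  rw [mul_comm]
  exact mul_dvd_mul_left _ hg

theorem Mat_full_le (N q : ℕ) [NeZero N] [NeZero q] :
    modularFunctionFieldFull N ≤ modularFunctionFieldFull (N * q) :=
  full_degeneracy_le (Dvd.intro _ rfl)

/-! ### `H1 q M`, `H1 q (M q)` -/

theorem Mat_T_mem_H1 (q M : ℕ) : ModularGroup.T ∈ H1 q M := by
  rw [Mat_mem_H1_iff]
  refine ⟨by simp [ModularGroup.T], Or.inl ?_⟩
  simp [dd, ModularGroup.T]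

theorem Mat_hdiag_H1 (q M : ℕ) [NeZero q] (g : SL(2, ℤ)) (hg : g ∈ H1 q (M * q)) :
    ∃ d ∈ H1 q M,
      ModularForm.heckeDiagMatrix q * mapGL ℝ g = mapGL ℝ d * ModularForm.heckeDiagMatrix q := by
  have hq : (q : ℤ) ≠ 0 := by exact_mod_cast NeZero.ne q
  rw [Mat_mem_H1_iff] at hg
  obtain ⟨hg, hd⟩ := hg
  push_cast at hg
  obtain ⟨δ, h1, h2, h3⟩ := Mat_exists_diag q g ((Dvd.intro _ rfl).trans hg)
  refine ⟨δ, ?_, h3⟩
  rw [Mat_mem_H1_iff]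
  refine ⟨?_, ?_⟩
  · rw [← h1, show (q : ℤ) * ((M : ℤ) * q) = q * (q * M) by ring] at hg
    push_cast
    exact (mul_dvd_mul_iff_left hq).1 hg
  · have : dd q δ = dd q g := by
      show ((δ 1 1 : ℤ) : ZMod q) = ((g 1 1 : ℤ) : ZMod q)
      rw [h2]
    rw [this]; exact hd

theorem Mat_hcov_H1 (q M : ℕ) [NeZero q] (g : SL(2, ℤ)) (hg : g ∈ H1 q M) :
    ∃ j < q, ∃ d ∈ H1 q (M * q),
      ModularForm.heckeMatrix q 0 * mapGL ℝ g = mapGL ℝ d * ModularForm.heckeMatrix q j := by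
  rw [Mat_mem_H1_iff] at hg
  obtain ⟨hg, hd⟩ := hg
  push_cast at hg
  have hqc : (q : ℤ) ∣ g 1 0 := (Dvd.intro _ rfl).trans hg
  obtain ⟨j, hj, δ, h1, h2, h3⟩ := Mat_exists_cov q g hqc
  refine ⟨j, hj, δ, ?_, h3⟩
  rw [Mat_mem_H1_iff]
  refine ⟨?_, ?_⟩
  · rw [h1]
    push_cast
    rw [show (q : ℤ) * ((M : ℤ) * q) = q * (q * M) by ring]
    exact mul_dvd_mul_left _ hg
  · have : dd q δ = dd q g := by
      show ((δ 1 1 : ℤ) : ZMod q) = ((g 1 1 : ℤ) : ZMod q)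
      rw [h2]
      push_cast
      rw [(ZMod.intCast_zmod_eq_zero_iff_dvd _ _).2 hqc]
      simp
    rw [this]; exact hd

theorem Mat_F1Q_le (q M : ℕ) [NeZero q] [NeZero M] : F1Q q M ≤ F1Q q (M * q) := by
  unfold F1Q
  exact sup_le_sup_left (full_degeneracy_le (by rw [← mul_assoc]; exact Dvd.intro _ rfl)) _

end Fermat.Agent.S43.Ops.U
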