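/-
Row 37 (S43), block OPS, sub-block OPS-U (helper47).  THE TWO INSTANCES of `U_q`:
* `uOp1 q M : UOp (F1Q q M) q`                         (level `±Γ₁(q) ∩ Γ₀(q M)`);
* `uOp0 N q (hqN : q ∣ N) : UOp (modularFunctionFieldFull N) q`   (level `Γ₀(N)`, `q ∣ N`),
with the product formulas `real_uOp1`, `real_uOp0` and `U = Norm_{u(qτ)} ∘ incl` (`UData.U_apply`).
= `Norm.lean` (generic existence) + `Mat.lean` (helper8: matrices).  No primality is needed.
-/
import Fermat.Agent.S43.Ops.U.Norm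
import Fermat.Agent.S43.Ops.U.Mat
import Fermat.Agent.S48.BB.W.Lvl
import Fermat.Agent.S48.BB.V.LvlFull

set_option autoImplicit false

noncomputable section

namespace Fermat.Agent.S43.Ops.U

open ModularCurve AlgebraicCurve CongruenceSubgroup
open Fermat.Agent.S24 Fermat.Agent.S24.B Fermat.Agent.GAL.Mult Fermat.Agent.S48.BB
  Fermat.Agent.S48.BB.U
open scoped MatrixGroups

/-- the data of `U_q` at the level `±Γ₁(q) ∩ Γ₀(q M)` -/
theorem uData1 (q M : ℕ) [NeZero q] [NeZero M] :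
    UData (F1Q q M) (F1Q q (M * q)) (H1 q M) (H1 q (M * q)) (q * M) (q * (M * q)) q where
  hL := W.isLvl_F1Q q M
  hL' := W.isLvl_F1Q q (M * q)
  hF := Mat_F1Q_le q M
  hN := mul_assoc _ _ _
  hT := Mat_T_mem_H1 q M
  hdiag := Mat_hdiag_H1 q M
  hcov := Mat_hcov_H1 q M

/-- the data of `U_q` at the level `Γ₀(N)`, `q ∣ N` -/
theorem uData0 (N q : ℕ) [NeZero N] [NeZero q] (hqN : q ∣ N) :
    UData (modularFunctionFieldFull N) (modularFunctionFieldFull (N * q)) (Gamma0 N)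
      (Gamma0 (N * q)) N (N * q) q where
  hL := V.isLvl_full N
  hL' := V.isLvl_full (N * q)
  hF := Mat_full_le N q
  hN := rfl
  hT := Mat_T_mem_Gamma0 N
  hdiag := Mat_hdiag_Gamma0 N q
  hcov := Mat_hcov_Gamma0 N q hqN

/-- **`U_q` on the function field of `±Γ₁(q) ∩ Γ₀(q M)`.** -/
def uOp1 (q M : ℕ) [NeZero q] [NeZero M] : UOp (F1Q q M) q := (uData1 q M).toUOp

/-- **`U_q` on the function field of `Γ₀(N)`, `q ∣ N`.** -/
def uOp0 (N q : ℕ) [NeZero N] [NeZero q] (hqN : q ∣ N) : UOp (modularFunctionFieldFull N) q :=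
  (uData0 N q hqN).toUOp

theorem real_uOp1 (q M : ℕ) [NeZero q] [NeZero M] (u : FB (F1Q q M)) :
    real (W.isLvl_F1Q q M) ((uOp1 q M).U u) =
      ∏ j : Fin q, (aU q j)⁻¹ • real (W.isLvl_F1Q q M) u :=
  (uData1 q M).real_U u

theorem real_uOp0 (N q : ℕ) [NeZero N] [NeZero q] (hqN : q ∣ N)
    (u : FB (modularFunctionFieldFull N)) :
    real (V.isLvl_full N) ((uOp0 N q hqN).U u) =
      ∏ j : Fin q, (aU q j)⁻¹ • real (V.isLvl_full N) u :=
  (uData0 N q hqN).real_U u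

end Fermat.Agent.S43.Ops.U

end
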