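/-
Row 37 (S43), block OPS, sub-block OPS-U (helper47).  GENERIC EXISTENCE of `U_q`.

Data `UData F₀ F₀' H H' N N' q`: `F₀ ≤ F₀'`, `IsLvl F₀ H N`, `IsLvl F₀' H' N'`, `N' = N q`, `T ∈ H`,
  `diag(q,1) H' diag(q,1)⁻¹ ⊆ H`   and   `(1 0; 0 q) γ ∈ H' (1 j; 0 q)` for every `γ ∈ H`, some `j < q`.
Then   `alphaB u = u`, `betaB u = u(q τ)` are two embeddings `FB F₀ → FB F₀'` and
  `U u := Norm_{betaB} (alphaB u)`   satisfies
  * `Psi_U`     : `Psi (U u) = ∏_{j < q} u ∘ (1 j; 0 q)`      in `LL (N' q)`;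
  * `real_U`    : the same formula in the field of meromorphic functions;
  * `qExpand_U` : `(U u)(t^q) = ∏_{b < q} u(ζ^b t)`;
  * `isKum_U`   : `U` preserves the elements whose divisor is divisible by `n`.

PROOF.  Second uniformisation of `FB F₀'`: `Psi1 f := f(τ / q) = compLL (1 0; 0 q) (Psi hL' f) ∈ LL (N' q)`, with the group
`stab1 :=` its stabiliser.  `Psi1 (betaB u) = Psi u`, so `T.Psi_normAlong_eq_prod betaB` applies, with the representatives
`T^(-j)`, `j < q`, of `H / stab1`.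
-/
import Fermat.Agent.S43.Ops.U.Defs
import Fermat.Agent.S48.BB.T.HeckeGen
import Fermat.Agent.S48.BB.T.Main

set_option autoImplicit false

noncomputable section

namespace Fermat.Agent.S43.Ops.U

open ModularCurve AlgebraicCurve Matrix.SpecialLinearGroup
open Fermat.Agent.S24 Fermat.Agent.S24.B Fermat.Agent.GAL.Mult Fermat.Agent.S48.BB
  Fermat.Agent.S48.BB.U Fermat.Agent.S48.BB.T Fermat.Agent.S48.BB.M
open Fermat.Agent.S37.HeckeInputs
open scoped MatrixGroups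

/-- `(1 j; 0 q)` in `GL(2,ℝ)⁺` -/
def aU (q j : ℕ) : GL(2, ℝ)⁺ :=
  ⟨ModularForm.heckeMatrix q j, by simpa using ModularForm.det_heckeMatrix_pos q j⟩

/-- `(q 0; 0 1)` in `GL(2,ℝ)⁺` -/
def bU (q : ℕ) : GL(2, ℝ)⁺ :=
  ⟨ModularForm.heckeDiagMatrix q, by simpa using ModularForm.det_heckeDiagMatrix_pos q⟩

theorem coe_aU (q j : ℕ) : ((aU q j : GL(2, ℝ)⁺) : GL (Fin 2) ℝ) = ModularForm.heckeMatrix q j := rfl

theorem coe_bU (q : ℕ) : ((bU q : GL(2, ℝ)⁺) : GL (Fin 2) ℝ) = ModularForm.heckeDiagMatrix q := rfl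

theorem isIntLevel_aU {N N' q : ℕ} [NeZero q] (hN : N * q = N') (j : ℕ) :
    IsIntLevel N N' (aU q j) := by
  refine ⟨!![1, (j : ℤ); 0, (q : ℤ)], ?_, ?_⟩
  · rw [Matrix.det_fin_two_of, ← hN]
    push_cast
    simp
  · show ((ModularForm.heckeMatrix q j : GL (Fin 2) ℝ) : Matrix (Fin 2) (Fin 2) ℝ) = _
    rw [ModularForm.val_heckeMatrix (NeZero.ne q)]
    ext i k
    fin_cases i <;> fin_cases k <;> simp

theorem isIntLevel_bU {N N' q : ℕ} [NeZero q] (hN : N * q = N') : IsIntLevel N N' (bU q) := by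
  refine ⟨!![(q : ℤ), 0; 0, 1], ?_, ?_⟩
  · rw [Matrix.det_fin_two_of, ← hN]
    push_cast
    simp
  · show ((ModularForm.heckeDiagMatrix q : GL (Fin 2) ℝ) : Matrix (Fin 2) (Fin 2) ℝ) = _
    rw [ModularForm.val_heckeDiagMatrix (NeZero.ne q)]
    ext i k
    fin_cases i <;> fin_cases k <;> simp

/-- `(1 0; 0 q) T^j = (1 j; 0 q)` -/
theorem aU_zero_mul_T (q : ℕ) [NeZero q] (j : ℕ) :
    aU q 0 * sl (ModularGroup.T ^ j) = sl 1 * aU q j := by
  rw [map_one, one_mul]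
  apply Subtype.ext
  apply Units.ext
  show ((ModularForm.heckeMatrix q 0 : GL (Fin 2) ℝ) : Matrix (Fin 2) (Fin 2) ℝ) *
    ((mapGL ℝ (ModularGroup.T ^ j) : GL (Fin 2) ℝ) : Matrix (Fin 2) (Fin 2) ℝ) =
    ((ModularForm.heckeMatrix q j : GL (Fin 2) ℝ) : Matrix (Fin 2) (Fin 2) ℝ)
  rw [ModularForm.val_heckeMatrix (NeZero.ne q), ModularForm.val_heckeMatrix (NeZero.ne q)]
  have h2 : (ModularGroup.T ^ j : SL(2, ℤ)).1 = !![1, (j : ℤ); 0, 1] := by
    rw [← zpow_natCast]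
    exact ModularGroup.coe_T_zpow _
  have h3 : ((mapGL ℝ (ModularGroup.T ^ j) : GL (Fin 2) ℝ) : Matrix (Fin 2) (Fin 2) ℝ) =
      !![1, (j : ℝ); 0, 1] := by
    have h4 : ((mapGL ℝ (ModularGroup.T ^ j) : GL (Fin 2) ℝ) : Matrix (Fin 2) (Fin 2) ℝ) =
        (ModularGroup.T ^ j : SL(2, ℤ)).1.map (Int.cast : ℤ → ℝ) := by
      ext i k
      rfl
    rw [h4, h2]
    ext i k
    fin_cases i <;> fin_cases k <;> simp
  rw [h3]
  ext i k
  fin_cases i <;> fin_cases k <;> simp [Matrix.mul_apply, Fin.sum_univ_two]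

/-- The data for the operator `U_q`. -/
structure UData (F₀ F₀' : IntermediateField ℚ (LaurentSeries ℚ)) (H H' : Subgroup SL(2, ℤ))
    (N N' q : ℕ) [NeZero N] [NeZero N'] [NeZero q] where
  hL : IsLvl F₀ H N
  hL' : IsLvl F₀' H' N'
  hF : F₀ ≤ F₀'
  hN : N * q = N'
  hT : ModularGroup.T ∈ H
  hdiag : ∀ γ ∈ H', ∃ δ ∈ H,
    ModularForm.heckeDiagMatrix q * mapGL ℝ γ = mapGL ℝ δ * ModularForm.heckeDiagMatrix q
  hcov : ∀ γ ∈ H, ∃ j < q, ∃ δ ∈ H',
    ModularForm.heckeMatrix q 0 * mapGL ℝ γ = mapGL ℝ δ * ModularForm.heckeMatrix q j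

namespace UData

variable {F₀ F₀' : IntermediateField ℚ (LaurentSeries ℚ)} {H H' : Subgroup SL(2, ℤ)}
  {N N' q : ℕ} [NeZero N] [NeZero N'] [NeZero q] (X : UData F₀ F₀' H H' N N' q)

include X in
theorem hL₁ : IsLvl F₀ H N' := IsLvl.levelUp X.hL X.hN

include X in
theorem hL₂ : IsLvl F₀ H (N' * q) := IsLvl.levelUp X.hL₁ rfl

theorem smul_compLL_bU (u : FB F₀) (γ : SL(2, ℤ)) (hγ : γ ∈ H') :
    γ • compLL (bU q) (isIntLevel_bU X.hN) (Psi X.hL u) =
      compLL (bU q) (isIntLevel_bU X.hN) (Psi X.hL u) := by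
  obtain ⟨δ, hδ, h⟩ := X.hdiag γ⁻¹ (inv_mem hγ)
  have h1 := smul_compLL (g := bU q) (g' := bU q) (isIntLevel_bU X.hN) (isIntLevel_bU X.hN) γ⁻¹ δ
    (Subtype.ext h) (Psi X.hL u)
  rwa [inv_inv, smul_Psi_of_mem X.hL δ⁻¹ (inv_mem hδ)] at h1

/-- `u ↦ u(q τ)` -/
def betaB : FB F₀ →ₐ[Kbar] FB F₀' :=
  liftPsi X.hL' ((compLL (bU q) (isIntLevel_bU X.hN)).comp (Psi X.hL))
    (fun u γ hγ => X.smul_compLL_bU u γ hγ)

theorem Psi_betaB (u : FB F₀) :
    Psi X.hL' (X.betaB u) = compLL (bU q) (isIntLevel_bU X.hN) (Psi X.hL u) :=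
  Psi_liftPsi X.hL' _ _ u

theorem coe_betaB (u : FB F₀) :
    ((X.betaB u : FB F₀') : LaurentSeries Kbar) = qExpand Kbar q (u : LaurentSeries Kbar) := by
  apply ModularCurve.qExpand_injective (R := Kbar) N'
  rw [← U.texpLL_Psi X.hL', Psi_betaB, texpLL_compLL_diag X.hL X.hN _ (coe_bU q) u,
    Main_qExpand_qExpand, Main_qExpand_qExpand]
  exact Main_qExpand_congr (by rw [← X.hN, mul_assoc]) _

/-- the second uniformisation `f ↦ f(τ / q)` of `FB F₀'` -/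
def Psi1 : FB F₀' →ₐ[Kbar] LL (N' * q) :=
  (compLL (aU q 0) (isIntLevel_aU rfl 0)).comp (Psi X.hL')

theorem Psi1_apply (f : FB F₀') :
    X.Psi1 f = compLL (aU q 0) (isIntLevel_aU rfl 0) (Psi X.hL' f) := rfl

theorem Psi1_betaB (u : FB F₀) : X.Psi1 (X.betaB u) = Psi X.hL₂ u := by
  symm
  rw [U.Psi_eq_iff, Psi1_apply, texpLL_compLL_upper X.hL' rfl _ 0 (coe_aU q 0), pow_zero,
    twist_one, coe_betaB, Main_qExpand_qExpand]

/-- the stabiliser of the second uniformisation -/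
def stab1 : Subgroup SL(2, ℤ) where
  carrier := {γ | ∀ f : FB F₀', γ • X.Psi1 f = X.Psi1 f}
  mul_mem' := fun {a b} ha hb f => by rw [mul_smul, hb f, ha f]
  one_mem' := fun f => one_smul _ _
  inv_mem' := fun {a} ha f => by rw [inv_smul_eq_iff, ha f]

theorem mem_stab1 (γ : SL(2, ℤ)) : γ ∈ X.stab1 ↔ ∀ f : FB F₀', γ • X.Psi1 f = X.Psi1 f := Iff.rfl

theorem isUniformization1 : IsUniformization (X.betaB (jB X.hL₂)) X.stab1 X.Psi1 where
  smul_algebraMap := smul_algebraMap_Kbar_LL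
  smul_of_mem := fun _ hγ f => hγ f
  smul_x := fun γ => by rw [Psi1_betaB, smul_Psi_jB]
  mem_of_smul := fun _ h => h
  invariants := fun g hg => by
    obtain ⟨r, hr, rfl⟩ := U.invariants X.hL₂ g hg
    refine ⟨X.betaB r, ?_, X.Psi1_betaB r⟩
    have h1 : (IntermediateField.adjoin Kbar {jB X.hL₂}).map X.betaB =
        IntermediateField.adjoin Kbar {X.betaB (jB X.hL₂)} := by
      rw [IntermediateField.adjoin_map, Set.image_singleton]
    rw [← h1]
    exact ⟨r, hr, rfl⟩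

theorem finiteIndex1 : X.stab1.FiniteIndex := by
  classical
  obtain ⟨s, hs⟩ := exists_finset_adjoin_eq_top X.hL'
  have h1 : (⨅ f : s, MulAction.stabilizer SL(2, ℤ) (X.Psi1 f.1)).FiniteIndex :=
    Subgroup.finiteIndex_iInf fun f => finiteIndex_stabilizer_LL _
  refine Subgroup.finiteIndex_of_le (H := ⨅ f : s, MulAction.stabilizer SL(2, ℤ) (X.Psi1 f.1)) ?_
  intro γ hγ
  rw [Subgroup.mem_iInf] at hγ
  intro f
  have hf : f ∈ IntermediateField.adjoin Kbar (s : Set (FB F₀')) := by rw [hs]; trivial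
  induction hf using IntermediateField.adjoin_induction with
  | mem y hy => exact hγ ⟨y, hy⟩
  | algebraMap c => rw [AlgHom.commutes, smul_algebraMap_Kbar_LL]
  | add a b _ _ ha hb => rw [map_add, smul_add, ha, hb]
  | inv a _ ha => rw [map_inv₀, smul_inv'', ha]
  | mul a b _ _ ha hb => rw [map_mul, smul_mul', ha, hb]

/-- `T^(-j) • f(τ/q) = f((τ + j)/q)` -/
theorem T_smul_Psi1 (j : ℕ) (f : FB F₀') :
    (ModularGroup.T ^ j)⁻¹ • X.Psi1 f = compLL (aU q j) (isIntLevel_aU rfl j) (Psi X.hL' f) := by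
  have h := smul_compLL (isIntLevel_aU (N := N') rfl 0) (isIntLevel_aU (N := N') rfl j)
    (ModularGroup.T ^ j) 1 (aU_zero_mul_T q j) (Psi X.hL' f)
  rwa [inv_one, one_smul] at h

/-- **The operator `U_q`** -/
def U : FB F₀ →* FB F₀ :=
  (normAlong X.betaB).comp (alphaB X.hF : FB F₀ →* FB F₀')

theorem U_apply (u : FB F₀) : X.U u = normAlong X.betaB (alphaB X.hF u) := rfl

theorem mem_stab1_of_rel {γ δ : SL(2, ℤ)} (hδ : δ ∈ H')
    (h : aU q 0 * sl γ = sl δ * aU q 0) : γ ∈ X.stab1 := by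
  rw [← inv_inv γ]
  refine inv_mem ?_
  intro f
  have h1 := smul_compLL (isIntLevel_aU (N := N') rfl 0) (isIntLevel_aU (N := N') rfl 0) γ δ h
    (Psi X.hL' f)
  rwa [smul_Psi_of_mem X.hL' δ⁻¹ (inv_mem hδ)] at h1

theorem Psi_U (u : FB F₀) :
    Psi X.hL₂ (X.U u) = ∏ j : Fin q, compLL (aU q j) (isIntLevel_aU rfl j) (Psi X.hL₁ u) := by
  have := finiteIndex X.hL₂
  have := X.finiteIndex1
  have hcov : ∀ g ∈ H, ∃ i : Fin q, ((ModularGroup.T ^ (i : ℕ))⁻¹)⁻¹ * g ∈ X.stab1 := by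
    intro g hg
    obtain ⟨j, hj, δ, hδ, h⟩ := X.hcov g⁻¹ (inv_mem hg)
    refine ⟨⟨j, hj⟩, ?_⟩
    rw [inv_inv, ← inv_inv (ModularGroup.T ^ j * g)]
    refine inv_mem (X.mem_stab1_of_rel hδ ?_)
    have h' : aU q 0 * sl g⁻¹ = sl δ * aU q j := Subtype.ext h
    have h2 := aU_zero_mul_T q j
    rw [map_one, one_mul] at h2
    rw [mul_inv_rev, map_mul, ← mul_assoc, h', ← h2, map_inv, mul_assoc, mul_assoc,
      mul_inv_cancel, mul_one]
  have hdisj : ∀ i j : Fin q, ((ModularGroup.T ^ (i : ℕ))⁻¹)⁻¹ * (ModularGroup.T ^ (j : ℕ))⁻¹ ∈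
      X.stab1 → i = j := by
    intro i j hij
    rw [inv_inv] at hij
    have h1 := hij (jB X.hL')
    rw [mul_smul, smul_eq_iff_eq_inv_smul, T_smul_Psi1, T_smul_Psi1] at h1
    have h2 := congrArg (texpLL (N' * q)) h1
    rw [texpLL_compLL_upper X.hL' rfl _ j (coe_aU q j), texpLL_compLL_upper X.hL' rfl _ i (coe_aU q i)]
      at h2
    have h3 := congrArg (fun s : LaurentSeries Kbar => s.coeff (-1 : ℤ))
      (ModularCurve.qExpand_injective (R := Kbar) N' h2)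
    simp only [twist_coeff, coe_jB', S24.B.Jser_one_coeff_neg_one, mul_one] at h3
    have h4 : zetaK q ^ (j : ℕ) = zetaK q ^ (i : ℕ) := by
      have := Units.ext h3
      rwa [zpow_neg_one, zpow_neg_one, inv_inj] at this
    exact Fin.ext ((isPrimitiveRoot_zetaK q).pow_inj i.2 j.2 h4.symm)
  rw [U_apply, Psi_normAlong_eq_prod X.betaB (isUniformization X.hL₂) X.isUniformization1
    (exists_finset_adjoin_eq_top X.hL₂) (exists_finset_adjoin_eq_top X.hL')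
    X.Psi1_betaB (fun i : Fin q => (ModularGroup.T ^ (i : ℕ))⁻¹)
    (fun i => inv_mem (pow_mem X.hT _)) hcov hdisj]
  refine Finset.prod_congr rfl fun i _ => ?_
  rw [T_smul_Psi1, Psi_alphaB X.hL₁ X.hL' X.hF]

/-- **The product formula** in the field of meromorphic functions. -/
theorem real_U (u : FB F₀) :
    real X.hL (X.U u) = ∏ j : Fin q, (aU q j)⁻¹ • real X.hL u := by
  rw [← real_levelUp X.hL X.hL₁ X.hN, ← real_levelUp X.hL₁ X.hL₂ rfl, U.real_apply, Psi_U, map_prod]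
  refine Finset.prod_congr rfl fun i _ => ?_
  rw [embL_compLL, ← real_levelUp X.hL X.hL₁ X.hN u, U.real_apply]

/-- **The `q`-expansion**: `(U u)(t^q) = ∏_{b<q} u(ζ^b t)`. -/
theorem qExpand_U (u : FB F₀) :
    qExpand Kbar q ((X.U u : FB F₀) : LaurentSeries Kbar) =
      ∏ b ∈ Finset.range q, twist (zetaK q ^ b) (u : LaurentSeries Kbar) := by
  apply ModularCurve.qExpand_injective (R := Kbar) N'
  have h1 := congrArg (texpLL (N' * q)) (X.Psi_U u)
  rw [U.texpLL_Psi, map_prod] at h1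
  rw [Main_qExpand_qExpand, h1, map_prod,
    ← Fin.prod_univ_eq_prod_range (fun b => qExpand Kbar N' (twist (zetaK q ^ b)
      (u : LaurentSeries Kbar))) q]
  refine Finset.prod_congr rfl fun i _ => ?_
  exact texpLL_compLL_upper X.hL₁ rfl _ i (coe_aU q i) u

/-- `U` preserves the elements whose divisor is divisible by `n`. -/
theorem isKum_U (n : ℕ) (u : FB F₀) (hu : IsKum (FB F₀) n u) : IsKum (FB F₀) n (X.U u) := by
  have := isFF1 X.hL
  have := isFF1 X.hL'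
  exact dvd_ord_normAlong X.betaB (alphaB X.hF) (jB X.hL) (transcendental_jB X.hL) n u hu

/-- **Existence of `U_q`.** -/
def toUOp : UOp F₀ q where
  U := X.U
  qExpand_U := X.qExpand_U
  isKum := X.isKum_U

theorem toUOp_U : X.toUOp.U = X.U := rfl

end UData

/-- The product formula for any `UOp`, given the data. -/
theorem UOp.real_U {F₀ F₀' : IntermediateField ℚ (LaurentSeries ℚ)} {H H' : Subgroup SL(2, ℤ)}
    {N N' q : ℕ} [NeZero N] [NeZero N'] [NeZero q] (Y : UOp F₀ q) (X : UData F₀ F₀' H H' N N' q)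
    (u : FB F₀) : real X.hL (Y.U u) = ∏ j : Fin q, (aU q j)⁻¹ • real X.hL u := by
  rw [Y.U_eq X.toUOp, X.toUOp_U, X.real_U]

end Fermat.Agent.S43.Ops.U

end
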